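import Fermat.Agent.S37.Core.Inst
import Fermat.Agent.S37.H818.NodePull

/-!
# Row S15, node RED / GE-2 (helper182): the specialisation maps `sp₀` with property (i)

`GeoPartsStatement` (`S15/H962/IterRed.lean`) asks, at every multiplicative prime `q ≠ p` and every
valuation subring `A ∣ q`, for an additive map `sp₀` out of `J₀(p)` which is injective on torsion
of order prime to `q`.  The concrete maps are (any level `N`, `q ∤ N`):

* `q ≥ 5`          : `reductionModL A N`                         (`sp_inj_of_five_le`);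
* `q = 3`, `2 ∤ N` : `spThree = reductionModL A (N * 2) ∘ π^*`   (`spThree_inj`);
* `q = 2`, `3 ∤ N` : `spTwo   = reductionModL A (N * 3) ∘ π^*`   (`spTwo_inj`),

where `π^* = pullbackPic0Along (heckeAlphaBar Qb N a)` is `H818.TransferInputs.pullback`.
Everything is UNCONDITIONAL: frozen S18 (`Fermat.Agent.S18.result`, via `S37.Core.s18Statement`),
node_rim (`S37.Core.rimStatement`), node_pull (`S37.H818`).  Also exported: the reduction inputs
`ReductionInputsModL A M` at the three levels (`rim_of_five_le`, `rim_three`, `rim_two`), Galois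
equivariance of `π^*`, and the formulas `spThree_apply`, `spTwo_apply`.
-/

set_option autoImplicit false
set_option linter.style.haveILetI false

noncomputable section

namespace Fermat.Agent.S15.H182

open ModularCurve AlgebraicCurve Fermat.Agent.S37 Fermat.Agent.S37.Core

/-! ### The reduction inputs at the three levels -/

/-- node_rim at level `N`, residue characteristic `q ≥ 5`. -/
theorem rim_of_five_le (N : ℕ) [NeZero N] {q : ℕ} (hq : q.Prime) (hq5 : 5 ≤ q) (hqN : ¬ q ∣ N)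
    (A : ValuationSubring (AlgebraicClosure ℚ)) (hA : A.LiesOverPrime q) :
    ReductionInputsModL A N :=
  rimStatement N q hq hqN (Or.inl hq5) A hA

theorem three_not_dvd_mul_two {N : ℕ} (h3N : ¬ 3 ∣ N) : ¬ 3 ∣ N * 2 := by
  intro h
  rcases (Nat.Prime.dvd_mul Nat.prime_three).mp h with h | h
  · exact h3N h
  · exact absurd h (by decide)

theorem two_not_dvd_mul_three {N : ℕ} (h2N : ¬ 2 ∣ N) : ¬ 2 ∣ N * 3 := by
  intro h
  rcases (Nat.Prime.dvd_mul Nat.prime_two).mp h with h | h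
  · exact h2N h
  · exact absurd h (by decide)

/-- node_rim at level `N * 2`, residue characteristic `3`. -/
theorem rim_three (N : ℕ) [NeZero N] (h3N : ¬ 3 ∣ N)
    (A : ValuationSubring (AlgebraicClosure ℚ)) (hA : A.LiesOverPrime 3) :
    ReductionInputsModL A (N * 2) :=
  rimStatement (N * 2) 3 Nat.prime_three (three_not_dvd_mul_two h3N)
    (Or.inr (Or.inl ⟨rfl, Dvd.intro_left N rfl⟩)) A hA

/-- node_rim at level `N * 3`, residue characteristic `2`. -/
theorem rim_two (N : ℕ) [NeZero N] (h2N : ¬ 2 ∣ N)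
    (A : ValuationSubring (AlgebraicClosure ℚ)) (hA : A.LiesOverPrime 2) :
    ReductionInputsModL A (N * 3) :=
  rimStatement (N * 3) 2 Nat.prime_two (two_not_dvd_mul_three h2N)
    (Or.inr (Or.inr ⟨rfl, Dvd.intro_left N rfl⟩)) A hA

/-! ### `q ≥ 5` -/

/-- **(i) at `q ≥ 5`**: `reductionModL A N` is injective on torsion of order prime to `q`. -/
theorem sp_inj_of_five_le (N : ℕ) [NeZero N] {q : ℕ} (hq : q.Prime) (hq5 : 5 ≤ q)
    (hqN : ¬ q ∣ N) (A : ValuationSubring (AlgebraicClosure ℚ)) (hA : A.LiesOverPrime q)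
    (m : ℕ) (z : JZero N) (hm : ¬ q ∣ m) (hmz : m • z = 0)
    (hz : reductionModL A N z = 0) : z = 0 :=
  s18Statement N q hq hqN A hA (rim_of_five_le N hq hq5 hqN A hA) m hm z hmz hz

/-! ### `q = 3`: level `N * 2` -/

/-- The transfer inputs for `(ℓ, a) = (3, 2)`. -/
theorem transferThree (N : ℕ) [NeZero N] (h2N : ¬ 2 ∣ N) (h3N : ¬ 3 ∣ N) :
    H818.TransferInputs N 2 3 :=
  H818.transferInputs N 2 3 Nat.prime_three Nat.prime_two h3N (by decide)
    (H818.finrankAlong_pow N 2 3 (Or.inl ⟨rfl, rfl⟩) h2N)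

/-- `π^* : J₀(N) → J₀(N * 2)`. -/
def pullThree (N : ℕ) [NeZero N] (h2N : ¬ 2 ∣ N) (h3N : ¬ 3 ∣ N) : JZero N →+ JZero (N * 2) :=
  (transferThree N h2N h3N).pullback

/-- The specialisation map at a place over `3`: `reductionModL A (N * 2) ∘ π^*`. -/
def spThree (N : ℕ) [NeZero N] (h2N : ¬ 2 ∣ N) (h3N : ¬ 3 ∣ N)
    (A : ValuationSubring (AlgebraicClosure ℚ)) :
    JZero N →+ JZeroC (IsLocalRing.ResidueField A) (N * 2) :=
  (reductionModL A (N * 2)).comp (pullThree N h2N h3N)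

theorem spThree_apply (N : ℕ) [NeZero N] (h2N : ¬ 2 ∣ N) (h3N : ¬ 3 ∣ N)
    (A : ValuationSubring (AlgebraicClosure ℚ)) (z : JZero N) :
    spThree N h2N h3N A z = reductionModL A (N * 2) (pullThree N h2N h3N z) := rfl

theorem pullThree_galois (N : ℕ) [NeZero N] (h2N : ¬ 2 ∣ N) (h3N : ¬ 3 ∣ N)
    (σ : AlgebraicClosure ℚ ≃ₐ[ℚ] AlgebraicClosure ℚ) (z : JZero N) :
    pullThree N h2N h3N (σ • z) = σ • pullThree N h2N h3N z :=
  (transferThree N h2N h3N).pullback_galois σ z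

/-- **(i) at `q = 3`**. -/
theorem spThree_inj (N : ℕ) [NeZero N] (h2N : ¬ 2 ∣ N) (h3N : ¬ 3 ∣ N)
    (A : ValuationSubring (AlgebraicClosure ℚ)) (hA : A.LiesOverPrime 3)
    (m : ℕ) (z : JZero N) (hm : ¬ 3 ∣ m) (hmz : m • z = 0)
    (hz : spThree N h2N h3N A z = 0) : z = 0 := by
  have h1 : pullThree N h2N h3N z = 0 :=
    s18Statement (N * 2) 3 Nat.prime_three (three_not_dvd_mul_two h3N) A hA
      (rim_three N h3N A hA) m hm _ (by rw [← map_nsmul, hmz, map_zero]) hz
  exact (transferThree N h2N h3N).pullback_injective_of_coprime m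
    ((Nat.Prime.coprime_iff_not_dvd Nat.prime_three).mpr hm).symm z hmz h1

/-! ### `q = 2`: level `N * 3` -/

/-- The transfer inputs for `(ℓ, a) = (2, 3)`. -/
theorem transferTwo (N : ℕ) [NeZero N] (h2N : ¬ 2 ∣ N) (h3N : ¬ 3 ∣ N) :
    H818.TransferInputs N 3 2 :=
  H818.transferInputs N 3 2 Nat.prime_two Nat.prime_three h2N (by decide)
    (H818.finrankAlong_pow N 3 2 (Or.inr ⟨rfl, rfl⟩) h3N)

/-- `π^* : J₀(N) → J₀(N * 3)`. -/
def pullTwo (N : ℕ) [NeZero N] (h2N : ¬ 2 ∣ N) (h3N : ¬ 3 ∣ N) : JZero N →+ JZero (N * 3) :=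
  (transferTwo N h2N h3N).pullback

/-- The specialisation map at a place over `2`: `reductionModL A (N * 3) ∘ π^*`. -/
def spTwo (N : ℕ) [NeZero N] (h2N : ¬ 2 ∣ N) (h3N : ¬ 3 ∣ N)
    (A : ValuationSubring (AlgebraicClosure ℚ)) :
    JZero N →+ JZeroC (IsLocalRing.ResidueField A) (N * 3) :=
  (reductionModL A (N * 3)).comp (pullTwo N h2N h3N)

theorem spTwo_apply (N : ℕ) [NeZero N] (h2N : ¬ 2 ∣ N) (h3N : ¬ 3 ∣ N)
    (A : ValuationSubring (AlgebraicClosure ℚ)) (z : JZero N) :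
    spTwo N h2N h3N A z = reductionModL A (N * 3) (pullTwo N h2N h3N z) := rfl

theorem pullTwo_galois (N : ℕ) [NeZero N] (h2N : ¬ 2 ∣ N) (h3N : ¬ 3 ∣ N)
    (σ : AlgebraicClosure ℚ ≃ₐ[ℚ] AlgebraicClosure ℚ) (z : JZero N) :
    pullTwo N h2N h3N (σ • z) = σ • pullTwo N h2N h3N z :=
  (transferTwo N h2N h3N).pullback_galois σ z

/-- **(i) at `q = 2`**. -/
theorem spTwo_inj (N : ℕ) [NeZero N] (h2N : ¬ 2 ∣ N) (h3N : ¬ 3 ∣ N)
    (A : ValuationSubring (AlgebraicClosure ℚ)) (hA : A.LiesOverPrime 2)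
    (m : ℕ) (z : JZero N) (hm : ¬ 2 ∣ m) (hmz : m • z = 0)
    (hz : spTwo N h2N h3N A z = 0) : z = 0 := by
  have h1 : pullTwo N h2N h3N z = 0 :=
    s18Statement (N * 3) 2 Nat.prime_two (two_not_dvd_mul_three h2N) A hA
      (rim_two N h2N A hA) m hm _ (by rw [← map_nsmul, hmz, map_zero]) hz
  exact (transferTwo N h2N h3N).pullback_injective_of_coprime m
    ((Nat.Prime.coprime_iff_not_dvd Nat.prime_two).mpr hm).symm z hmz h1

end Fermat.Agent.S15.H182

end
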